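import Fermat.Agent.MazD.Tors
import Fermat.Agent.MazurP.LiftH
import Fermat.Agent.PicFlat.Kum
import Fermat.Agent.TWGal.Inertia

/-!
# Divisibility of the divisor class group of the special fibre
-/

set_option autoImplicit false
set_option linter.unusedSectionVars false
set_option linter.style.haveILetI false
set_option synthInstance.maxHeartbeats 400000
set_option maxHeartbeats 400000

noncomputable section

namespace Fermat.Agent.MazD

open AlgebraicCurve Fermat.Agent.Curves Fermat.Agent.GoodRed ModularCurve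
open Fermat.Agent.Models Fermat.Agent.SSMod IntermediateField
open Fermat.Agent.ModFun Fermat.Agent.TorLift Fermat.Agent.AnJac IsLocalRing
open Fermat.Agent.MazurP Fermat.Agent.PicFlat

local notation "ℒ" => LaurentSeries

section Gen

variable {k E : Type*} [Field k] [Field E] [Algebra k E] [IsFunctionField k E] [IsAlgClosed k]

theorem divisorOf_pow' (f : E) (n : ℕ) : divisorOf (k := k) (f ^ n) = n • divisorOf f := by
  ext v
  rw [Finsupp.smul_apply, divisorOf_apply, divisorOf_apply, ord_pow, nsmul_eq_mul]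

/-- `D ≡ n E` modulo principal divisors -/
def Dv (n : ℕ) (D : Divisor k E) : Prop := ∃ E' : Divisor k E, Lin D (n • E')

theorem Dv.add {n : ℕ} {D D' : Divisor k E} (h : Dv n D) (h' : Dv n D') : Dv n (D + D') := by
  obtain ⟨A, hA⟩ := h
  obtain ⟨B, hB⟩ := h'
  exact ⟨A + B, by rw [smul_add]; exact hA.add hB⟩

theorem Dv.neg {n : ℕ} {D : Divisor k E} (h : Dv n D) : Dv n (-D) := by
  obtain ⟨A, hA⟩ := h
  exact ⟨-A, by rw [smul_neg]; exact hA.neg⟩

theorem Dv.nsmul {n : ℕ} {D : Divisor k E} (h : Dv n D) (m : ℕ) : Dv n (m • D) := by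
  induction m with
  | zero => exact ⟨0, by rw [zero_smul, smul_zero]; exact Lin.refl _⟩
  | succ m ih => rw [succ_nsmul]; exact ih.add h

theorem Dv.zsmul {n : ℕ} {D : Divisor k E} (h : Dv n D) (m : ℤ) : Dv n (m • D) := by
  obtain ⟨m, rfl | rfl⟩ := Int.eq_nat_or_neg m
  · rw [natCast_zsmul]; exact h.nsmul m
  · rw [neg_smul, natCast_zsmul]; exact (h.nsmul m).neg

theorem Dv.self (n : ℕ) (D : Divisor k E) : Dv n (n • D) := ⟨D, Lin.refl _⟩

theorem Dv.prin (n : ℕ) {f : E} (hf : f ≠ 0) : Dv n (divisorOf (k := k) f) :=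
  ⟨0, f, hf, by rw [smul_zero, add_zero]⟩

theorem Dv.of_coprime {n m : ℕ} (hmn : Nat.Coprime m n) {D : Divisor k E} (h : Dv n (m • D)) :
    Dv n D := by
  have h1 := Nat.gcd_eq_gcd_ab m n
  rw [hmn] at h1
  have h2 : D = (m.gcdA n) • (m • D) + (m.gcdB n) • (n • D) := by
    rw [← natCast_zsmul D m, ← natCast_zsmul D n, smul_smul, smul_smul, ← add_smul]
    have h3 : m.gcdA n * (m : ℤ) + m.gcdB n * (n : ℤ) = 1 := by
      rw [mul_comm, mul_comm (m.gcdB n)]
      exact_mod_cast h1.symm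
    rw [h3, one_smul]
  rw [h2]
  exact (h.zsmul _).add ((Dv.self n D).zsmul _)

end Gen

section KK

variable {K : Type} [Field K] [IsAlgClosed K] [CharZero K] {M : ℕ} [NeZero M]

/-- the step in characteristic zero -/
theorem step_zero (ι : K →+* ℂ) {n k : ℕ} (hn : n ≠ 0) {s : modularFunctionFieldFullC K M}
    (hs0 : s ≠ 0) (hs : ∀ P : Place K (modularFunctionFieldFullC K M), ((n ^ k : ℕ) : ℤ) ∣ P.ord s) :
    ∃ s' g : modularFunctionFieldFullC K M, s' ≠ 0 ∧ g ≠ 0 ∧ s' = s * g ^ (n ^ k) ∧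
      ∀ P : Place K (modularFunctionFieldFullC K M), ((n ^ k * n : ℕ) : ℤ) ∣ P.ord s' := by
  have hnk : n ^ k ≠ 0 := pow_ne_zero _ hn
  obtain ⟨φ, hφ⟩ := exists_ClX ι hnk hs0 hs
  set KS := kX0 M ι (1 : Unit →* RingAut K) with hKS
  have h0 : KS.cl (n ^ k) φ s := hφ
  obtain ⟨s', hs'⟩ := KS.ex (Nat.mul_ne_zero hnk hn) φ
  have h1 : KS.cl (n ^ k) φ s' := KS.lev hnk hn hs'
  obtain ⟨g, hg, he⟩ := KS.eq_mul_pow hnk h1 h0 (χ := 0) (by rw [sub_self, smul_zero])
  exact ⟨s', g, KS.ne_zero hs', hg, he, fun P => ClX.dvd_ord ι hs' P⟩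

end KK

section Step

variable {K κ : Type} [Field K] [Field κ] {A : ValuationSubring K} (π : A →+* κ)
  [IsLocalHom π] [IsAlgClosed K] [IsAlgClosed κ] [CharZero K] {M : ℕ} [NeZero M]

include π in
set_option maxHeartbeats 1600000 in
/-- the step in the special fibre -/
theorem step (ι : K →+* ℂ) (hπ : Function.Surjective π) (hrk : GoodRed.RankOne π)
    (hcp : Cplt (baseRes π hπ)) {π₀ : K} (h0 : π₀ ≠ 0) (hO : π₀ ∈ (baseRes π hπ).O)
    (hr0 : (baseRes π hπ).r π₀ = 0) (h6 : (6 : κ) ≠ 0) (hMκ : (M : κ) ≠ 0)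
    [IsFunctionField κ (modularFunctionFieldFullC κ M)]
    {n : ℕ} (hn : (n : κ) ≠ 0) (hn0 : n ≠ 0) (k : ℕ)
    {D : Divisor κ (modularFunctionFieldFullC κ M)} {f : modularFunctionFieldFullC κ M}
    (hf0 : f ≠ 0) (hf : n ^ k • D = divisorOf f) : Dv n D := by
  have hMK : (M : K) ≠ 0 := by exact_mod_cast NeZero.ne M
  haveI := isFunctionField_fullC K M hMK
  have hnk : n ^ k ≠ 0 := pow_ne_zero _ hn0
  have hnkκ : ((n ^ k : ℕ) : κ) ≠ 0 := by rw [Nat.cast_pow]; exact pow_ne_zero _ hn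
  have hdvd : ∀ P : Place κ (modularFunctionFieldFullC κ M), ((n ^ k : ℕ) : ℤ) ∣ P.ord f := by
    intro P
    have := DFunLike.congr_fun hf P
    rw [Finsupp.smul_apply, divisorOf_apply, nsmul_eq_mul] at this
    exact ⟨_, this.symm⟩
  obtain ⟨m, s, w, hm, hs0, hw0, hLR, hs⟩ := exists_lift_class π ι hπ hrk hcp h0 hO hr0 hMκ hnkκ
    hf0 hdvd
  obtain ⟨s', g, hs'0, hg0, he, hs'⟩ := step_zero ι hn0 hs0 hs
  -- the reduction map
  obtain ⟨R, c, hR1, hR2, -⟩ := modRed_of_hasGood π (dvd_refl M) hMκ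
    (hasGood_of_six π M ι h6 hπ hMK hMκ) (fun m _ => by
      rw [relfinrank_self]; exact Nat.coprime_one_left m)
  -- reduction of principal divisors
  obtain ⟨a, gb, ha, hgb, hgLR⟩ := GoodRed.exists_scale π M hπ hMκ rfl hg0
  have hRg : R (divisorOf g) = divisorOf gb := by
    rw [← divisorOf_const_mul hg0 ha]
    exact hR2 _ _ hgLR hgb
  have hRs : R (divisorOf s) = divisorOf (f ^ m * w ^ (n ^ k)) :=
    hR2 _ _ hLR (mul_ne_zero (pow_ne_zero _ hf0) (pow_ne_zero _ hw0))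
  set Ds := kdiv (k := K) (n ^ k) s with hDs
  have h1 : n ^ k • Ds = divisorOf s := nsmul_kdiv hs
  set Es := kdiv (k := K) (n ^ k * n) s' with hEs
  have h2 : (n ^ k * n) • Es = divisorOf s' := nsmul_kdiv hs'
  have h3 : n • Es = Ds + divisorOf g := by
    apply nsmul_inj (n := n ^ k) hnk
    rw [← mul_smul, h2, he, divisorOf_mul' hs0 (pow_ne_zero _ hg0), divisorOf_pow', smul_add, h1]
  have h4 : R Ds = m • D + divisorOf w := by
    apply nsmul_inj (n := n ^ k) hnk
    rw [← map_nsmul, h1, hRs, divisorOf_mul' (pow_ne_zero _ hf0) (pow_ne_zero _ hw0),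
      divisorOf_pow', divisorOf_pow', ← hf, smul_add, smul_comm]
  have h5 : m • D = n • R Es - divisorOf gb - divisorOf w := by
    have h6 : R (n • Es) = R Ds + R (divisorOf g) := by rw [h3, map_add]
    rw [map_nsmul, h4, hRg] at h6
    rw [h6]
    abel
  have h7 : Dv n (m • D) := by
    rw [h5, sub_eq_add_neg, sub_eq_add_neg]
    exact ((Dv.self n _).add (Dv.prin n hgb).neg).add (Dv.prin n hw0).neg
  rcases Nat.eq_zero_or_pos k with hk | hk
  · subst hk
    rw [pow_zero, one_smul] at hf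
    rw [hf]
    exact Dv.prin n hf0
  · exact Dv.of_coprime (Nat.Coprime.coprime_dvd_right (dvd_pow_self n hk.ne') hm) h7

end Step

section Final

variable {q : ℕ} [hq : Fact q.Prime] {κ : Type} [Field κ] [CharP κ q] [IsAlgClosed κ]
  [Algebra (ZMod q) κ] [Algebra.IsAlgebraic (ZMod q) κ] {M : ℕ} [NeZero M]
  [IsFunctionField κ (modularFunctionFieldFullC κ M)]

theorem dv_prime (h5 : 5 ≤ q) (hqM : ¬ q ∣ M) {n : ℕ} (hn : n.Prime) (hqn : n ≠ q)
    (D : Divisor κ (modularFunctionFieldFullC κ M)) (hD : Divisor.degree D = 0) : Dv n D := by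
  obtain ⟨e⟩ := exists_resEquiv q (κ := κ)
  obtain ⟨ι⟩ := exists_embedding q
  obtain ⟨h1, h2⟩ := q_reduces e
  obtain ⟨m, hm0, g, hg0, hg⟩ := tors (ℓ := q) D hD
  obtain ⟨k, m', hm', rfl⟩ := Nat.exists_eq_pow_mul_and_not_dvd hm0 n hn.ne_one
  have h6 : (6 : κ) ≠ 0 := by
    have : ((6 : ℕ) : κ) ≠ 0 := by
      rw [Ne, CharP.cast_eq_zero_iff κ q]
      intro h
      have h7 : q ∣ 2 * 3 := h
      rcases (hq.out.dvd_mul).mp h7 with h8 | h8
      · have := Nat.le_of_dvd (by norm_num) h8; omega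
      · have := Nat.le_of_dvd (by norm_num) h8; omega
    exact_mod_cast this
  have hMκ : (M : κ) ≠ 0 := by rw [Ne, CharP.cast_eq_zero_iff κ q]; exact hqM
  have hnκ : (n : κ) ≠ 0 := by
    rw [Ne, CharP.cast_eq_zero_iff κ q]
    intro h
    exact hqn ((Nat.prime_dvd_prime_iff_eq hq.out hn).mp h).symm
  have h3 : Dv n (m' • D) := by
    refine step (πC q e) ι (πC_surjective q e) (rankOne_πC q e) (cplt_πC q e) (π₀ := (q : ℂ_[q]))
      ?_ h1 h2 h6 hMκ hnκ hn.ne_zero k (f := g) hg0 ?_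
    · exact_mod_cast hq.out.ne_zero
    · rw [← mul_smul]; exact hg
  exact Dv.of_coprime ((Nat.Prime.coprime_iff_not_dvd hn).mpr hm').symm h3

theorem dv_all (h5 : 5 ≤ q) (hqM : ¬ q ∣ M) (n : ℕ) (hqn : ¬ q ∣ n)
    (D : Divisor κ (modularFunctionFieldFullC κ M)) (hD : Divisor.degree D = 0) : Dv n D := by
  induction n using Nat.recOnMul generalizing D with
  | zero => exact absurd (dvd_zero q) hqn
  | one => exact ⟨D, by rw [one_smul]; exact Lin.refl _⟩
  | prime n hn => exact dv_prime h5 hqM hn (fun h => hqn (h ▸ dvd_rfl)) D hD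
  | mul a b iha ihb =>
    obtain ⟨E, h, hh0, hh⟩ := iha (fun h => hqn (h.mul_right b)) D hD
    have ha : a ≠ 0 := by rintro rfl; exact hqn (by simp)
    have hE : Divisor.degree E = 0 := by
      have h1 := congrArg Divisor.degree hh
      have h2 : Divisor.degree (divisorOf (k := κ) h) = 0 := degree_divisorOf h
      rw [hD, map_add, h2, zero_add, map_nsmul, nsmul_eq_mul] at h1
      exact (mul_eq_zero.mp h1.symm).resolve_left (by exact_mod_cast ha)
    obtain ⟨E', h', hh0', hh'⟩ := ihb (fun h => hqn (h.mul_left a)) E hE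
    refine ⟨E', h * h' ^ a, mul_ne_zero hh0 (pow_ne_zero _ hh0'), ?_⟩
    rw [hh, hh', divisorOf_mul' hh0 (pow_ne_zero _ hh0'), divisorOf_pow', smul_add, mul_smul,
      add_assoc]

end Final

local notation "Qbar" => AlgebraicClosure ℚ

/-- **DIVRES** -/
theorem divRes {ℓ : ℕ} (hℓ : ℓ.Prime) (h5 : 5 ≤ ℓ) (A : ValuationSubring Qbar)
    (hA : A.LiesOverPrime ℓ) (N : ℕ) [NeZero N] (hN : ¬ ℓ ∣ N)
    [IsFunctionField (ResidueField A) (modularFunctionFieldFullC (ResidueField A) N)] {n : ℕ}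
    (hn : ¬ ℓ ∣ n) (D : Divisor (ResidueField A) (modularFunctionFieldFullC (ResidueField A) N))
    (hD : Divisor.degree D = 0) :
    ∃ (E : Divisor (ResidueField A) (modularFunctionFieldFullC (ResidueField A) N))
      (h : modularFunctionFieldFullC (ResidueField A) N), h ≠ 0 ∧ D = n • E + divisorOf h := by
  haveI : Fact ℓ.Prime := ⟨hℓ⟩
  haveI : CharP (ResidueField A) ℓ := FrobDens.charP_residueField A hℓ hA
  let _ := ZMod.algebra (ResidueField A) ℓ
  haveI : Algebra.IsAlgebraic (ZMod ℓ) (ResidueField A) := TWGal.isAlgebraic_residueField hℓ hA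
  obtain ⟨E, h, h0, hh⟩ := dv_all (q := ℓ) h5 hN n hn D hD
  exact ⟨E, h, h0, by rw [hh]; abel⟩

end Fermat.Agent.MazD
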