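import Fermat.Agent.MazD.Lang
import Fermat.Agent.PicFlat.RRDim
import Fermat.Agent.PicFlat.Gal
import Fermat.Agent.PicFlat.LocOrd
import Fermat.Agent.GoodRed.Rigid

/-!
# Finiteness of Frobenius-fixed divisor classes
-/

set_option autoImplicit false
set_option linter.unusedSectionVars false

noncomputable section

namespace Fermat.Agent.MazD

open AlgebraicCurve Fermat.Agent.Curves Fermat.Agent.GoodRed Fermat.Agent.PicFlat
open scoped Pointwise

variable {K F : Type*} [Field K] [Field F] [Algebra K F] [IsFunctionField K F] [IsAlgClosed K]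
  {ℓ : ℕ} [hℓ : Fact (1 < ℓ)]

/-- powers of a semilinear automorphism fixing `x` -/
theorem pow_smul_x {Φ : SemilinearAut K F} {x : F} (hx : Φ • x = x) (n : ℕ) :
    (Φ ^ n) • x = x := by
  induction n with
  | zero => rw [pow_zero, one_smul]
  | succ n ih => rw [pow_succ, mul_smul, hx, ih]

theorem pow_base {Φ : SemilinearAut K F} (hΦ : ∀ a : K, SemilinearAut.baseAut Φ a = a ^ ℓ)
    (n : ℕ) (a : K) : SemilinearAut.baseAut (Φ ^ n) a = a ^ ℓ ^ n := by
  induction n generalizing a with
  | zero => rw [pow_zero, SemilinearAut.baseAut_one, pow_zero, pow_one]; rfl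
  | succ n ih =>
    rw [pow_succ, SemilinearAut.baseAut_mul]
    change SemilinearAut.baseAut (Φ ^ n) (SemilinearAut.baseAut Φ a) = _
    rw [hΦ, ih, ← pow_mul, pow_succ, mul_comm]

/-- finitely many places fixed by a power of Frobenius -/
theorem finite_fix {Φ : SemilinearAut K F} (hΦ : ∀ a : K, SemilinearAut.baseAut Φ a = a ^ ℓ)
    {x : F} (hx : Φ • x = x) (hx0 : x ≠ 0) (htr : Transcendental K x) {n : ℕ} (hn : n ≠ 0) :
    {P : Place K F | (Φ ^ n) • P = P}.Finite := by
  classical
  have hfin : {a : K | a ^ ℓ ^ n = a}.Finite := by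
    have h1 : (Polynomial.X ^ ℓ ^ n - Polynomial.X : Polynomial K) ≠ 0 :=
      FiniteField.X_pow_card_pow_sub_X_ne_zero K hn hℓ.out
    refine (Multiset.finite_toSet (Polynomial.X ^ ℓ ^ n - Polynomial.X : Polynomial K).roots).subset
      fun a ha => ?_
    rw [Set.mem_ofPred_eq, Polynomial.mem_roots h1, Polynomial.IsRoot, Polynomial.eval_sub,
      Polynomial.eval_pow, Polynomial.eval_X, sub_eq_zero]
    exact ha
  have hsub : {P : Place K F | (Φ ^ n) • P = P} ⊆ {P : Place K F | 0 < P.ord x⁻¹} ∪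
      ⋃ a ∈ {a : K | a ^ ℓ ^ n = a}, {P : Place K F | 0 < P.ord (x - algebraMap K F a)} := by
    intro P hP
    by_cases hpole : 0 ≤ P.ord x
    · right
      obtain ⟨a, ha⟩ := exists_residue P (f := x) ((mem_iff_val P).mp
        ((mem_iff_ord P hx0).mpr hpole))
      have hne : ∀ b : K, x - algebraMap K F b ≠ 0 := by
        intro b h
        apply htr
        rw [sub_eq_zero] at h
        rw [h]
        exact isAlgebraic_algebraMap b
      have h1 : 0 < P.ord (x - algebraMap K F a) :=
        ((val_lt_one_iff P).mp ha).resolve_left (hne a)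
      have h2 : 0 < P.ord (x - algebraMap K F (a ^ ℓ ^ n)) := by
        have h3 := SemilinearAut.ord_smul (Φ ^ n) P (x - algebraMap K F a)
        rw [show (Φ ^ n) • P = P from hP, smul_sub, pow_smul_x hx, SemilinearAut.smul_algebraMap,
          pow_base hΦ] at h3
        rw [h3]
        exact h1
      have h3 : a ^ ℓ ^ n = a := by
        by_contra hne'
        have h4 : (x - algebraMap K F a) - (x - algebraMap K F (a ^ ℓ ^ n)) =
            algebraMap K F (a ^ ℓ ^ n - a) := by rw [map_sub]; ring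
        have h5 : P.adicValuation (algebraMap K F (a ^ ℓ ^ n - a)) < 1 := by
          rw [← h4]
          exact (Valuation.map_sub _ _ _).trans_lt (max_lt ((val_lt_one_iff P).mpr (Or.inr h1))
            ((val_lt_one_iff P).mpr (Or.inr h2)))
        rw [val_algebraMap P (sub_ne_zero.mpr hne')] at h5
        exact lt_irrefl _ h5
      exact Set.mem_biUnion (show a ∈ {a : K | a ^ ℓ ^ n = a} from h3) h1
    · left
      rw [Set.mem_ofPred_eq, P.ord_inv]
      omega
  refine Set.Finite.subset ?_ hsub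
  exact (finite_zeros x⁻¹).union (hfin.biUnion fun a _ => finite_zeros _)

/-- a fixed effective divisor is supported on places of bounded degree -/
theorem finite_fixDiv {Φ : SemilinearAut K F} (hΦ : ∀ a : K, SemilinearAut.baseAut Φ a = a ^ ℓ)
    {x : F} (hx : Φ • x = x) (hx0 : x ≠ 0) (htr : Transcendental K x) (d : ℕ) :
    {E : Divisor K F | 0 ≤ E ∧ Divisor.degree E = d ∧ Φ • E = E}.Finite := by
  classical
  have hfin := finite_fix (K := K) (F := F) hΦ hx hx0 htr (n := d.factorial)
    (Nat.factorial_ne_zero d)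
  set T : Finset (Place K F) := hfin.toFinset with hT
  have key : ∀ E : Divisor K F, 0 ≤ E → Divisor.degree E = d → Φ • E = E →
      E.support ⊆ T ∧ ∀ P, E P ≤ d := by
    intro E hE hdeg hfix
    rw [degree_eq_sum, Finsupp.sum] at hdeg
    have hle : ∀ P, E P ≤ d := by
      intro P
      by_cases hP : P ∈ E.support
      · rw [← hdeg]
        exact Finset.single_le_sum (fun w _ => hE w) hP
      · rw [Finsupp.notMem_support_iff] at hP
        rw [hP]
        exact Int.natCast_nonneg d
    refine ⟨?_, hle⟩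
    have hcard : E.support.card ≤ d := by
      have h1 : (E.support.card : ℤ) ≤ ∑ w ∈ E.support, E w := by
        rw [Finset.card_eq_sum_ones, Nat.cast_sum]
        refine Finset.sum_le_sum fun w hw => ?_
        have h2 := hE w
        have h3 := Finsupp.mem_support_iff.mp hw
        have h4 : (0 : Divisor K F) w = 0 := rfl
        rw [h4] at h2
        push_cast
        omega
      rw [hdeg] at h1
      exact_mod_cast h1
    -- `Φ` permutes the support
    have hmap : ∀ P ∈ E.support, Φ • P ∈ E.support := by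
      intro P hP
      rw [Finsupp.mem_support_iff] at hP ⊢
      have h1 : (Φ • E) (Φ • P) = E P := by
        rw [SemilinearAut.divisor_smul_apply, inv_smul_smul]
      rw [hfix] at h1
      rwa [h1]
    intro P hP
    rw [hT, Set.Finite.mem_toFinset, Set.mem_ofPred_eq]
    -- the orbit of `P`
    have hmaps : ∀ i : ℕ, (Φ ^ i) • P ∈ E.support := by
      intro i
      induction i with
      | zero => rw [pow_zero, one_smul]; exact hP
      | succ i ih => rw [pow_succ', mul_smul]; exact hmap _ ih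
    have hpig : ∃ i ∈ Finset.range (d + 1), ∃ j ∈ Finset.range (d + 1), i ≠ j ∧
        (Φ ^ i) • P = (Φ ^ j) • P := by
      apply Finset.exists_ne_map_eq_of_card_lt_of_maps_to (t := E.support)
      · rw [Finset.card_range]; omega
      · intro i _
        exact hmaps i
    obtain ⟨i, hi, j, hj, hij, he⟩ := hpig
    have hmain : ∀ i j : ℕ, i < j → j ≤ d → (Φ ^ i) • P = (Φ ^ j) • P →
        (Φ ^ d.factorial) • P = P := by
      intro i j hij hjd he
      obtain ⟨t, rfl⟩ := Nat.exists_eq_add_of_lt hij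
      have h1 : (Φ ^ (t + 1)) • P = P := by
        have e : Φ ^ (i + t + 1) = Φ ^ i * Φ ^ (t + 1) := by rw [← pow_add, add_assoc]
        rw [e, mul_smul] at he
        exact (MulAction.injective (Φ ^ i) he).symm
      obtain ⟨s, hs⟩ : t + 1 ∣ d.factorial := Nat.dvd_factorial (Nat.succ_pos t) (by omega)
      rw [hs, pow_mul]
      clear hs
      induction s with
      | zero => rw [pow_zero, one_smul]
      | succ s ih => rw [pow_succ, mul_smul, h1, ih]
    rw [Finset.mem_range] at hi hj
    rcases Nat.lt_or_gt_of_ne hij with h | h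
    · exact hmain i j h (by omega) he
    · exact hmain j i h (by omega) he.symm
  -- finitely many candidates
  have hfin2 : {E : Divisor K F | E.support ⊆ T ∧ ∀ P, 0 ≤ E P ∧ E P ≤ d}.Finite := by
    have hinj : Set.InjOn (fun (E : Divisor K F) (P : T) => E P.1)
        {E : Divisor K F | E.support ⊆ T ∧ ∀ P, 0 ≤ E P ∧ E P ≤ d} := by
      intro E hE E' hE' h
      ext P
      by_cases hP : P ∈ T
      · exact congrFun h ⟨P, hP⟩
      · have h1 : P ∉ E.support := fun h => hP (hE.1 h)
        have h2 : P ∉ E'.support := fun h => hP (hE'.1 h)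
        rw [Finsupp.notMem_support_iff.mp h1, Finsupp.notMem_support_iff.mp h2]
    refine Set.Finite.of_finite_image ?_ hinj
    refine (Set.Finite.pi' (t := fun _ : T => (Set.Icc (0 : ℤ) d))
      fun _ => Set.finite_Icc _ _).subset ?_
    rintro _ ⟨E, hE, rfl⟩ P
    exact Set.mem_Icc.mpr (hE.2 P)
  refine hfin2.subset ?_
  rintro E ⟨h1, h2, h3⟩
  obtain ⟨h4, h5⟩ := key E h1 h2 h3
  exact ⟨h4, fun P => ⟨h1 P, h5 P⟩⟩

/-- **descent of effective divisors** -/
theorem exists_fixed_rep {Φ : SemilinearAut K F}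
    (hΦ : ∀ a : K, SemilinearAut.baseAut Φ a = a ^ ℓ) {E : Divisor K F} (hE : 0 ≤ E) {h : F}
    (hh0 : h ≠ 0) (hh : divisorOf h = Φ • E - E) :
    ∃ f : F, f ≠ 0 ∧ 0 ≤ divisorOf f + E ∧ Φ • (divisorOf f + E) = divisorOf f + E := by
  haveI : FiniteDimensional K (riemannRochSpace E) := finiteDimensional_riemannRochSpace _
  have hmem : ∀ f ∈ riemannRochSpace E, h * (Φ • f) ∈ riemannRochSpace E := by
    intro f hf
    have h1 := smul_mem_riemannRoch Φ hf
    have h2 : Φ • E = E + divisorOf h := by rw [hh]; abel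
    rcases eq_or_ne f 0 with rfl | hf0
    · rw [smul_zero, mul_zero]; exact Submodule.zero_mem _
    have hf0' := smul_ne_zero' Φ hf0
    rw [mem_iff_div (mul_ne_zero hh0 hf0'), divisorOf_mul' hh0 hf0']
    rw [mem_iff_div hf0', h2] at h1
    have e : divisorOf h + divisorOf (Φ • f) + E = divisorOf (Φ • f) + (E + divisorOf (k := K) h) := by
      abel
    rw [e]
    exact h1
  let S : riemannRochSpace E →+ riemannRochSpace E :=
    { toFun := fun f => ⟨h * (Φ • (f : F)), hmem f.1 f.2⟩
      map_zero' := Subtype.ext (by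
        change h * (Φ • (0 : F)) = 0
        rw [smul_zero, mul_zero])
      map_add' := fun f g => Subtype.ext (by
        change h * (Φ • ((f : F) + (g : F))) = h * (Φ • (f : F)) + h * (Φ • (g : F))
        rw [smul_add, mul_add]) }
  have hSv : ∀ f : riemannRochSpace E, ((S f : riemannRochSpace E) : F) = h * (Φ • (f : F)) :=
    fun f => rfl
  have hS : ∀ (a : K) (v : riemannRochSpace E), S (a • v) = a ^ ℓ • S v := by
    intro a v
    apply Subtype.ext
    rw [hSv]
    change h * (Φ • (a • (v : F))) = a ^ ℓ • (h * (Φ • (v : F)))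
    rw [Algebra.smul_def, smul_mul', SemilinearAut.smul_algebraMap, hΦ, Algebra.smul_def]
    ring
  have hinj : ∀ v, S v = 0 → v = 0 := by
    intro v hv
    have h1 : h * (Φ • (v : F)) = 0 := by rw [← hSv, hv]; rfl
    have h2 := (mul_eq_zero.mp h1).resolve_left hh0
    apply Subtype.ext
    by_contra h3
    exact smul_ne_zero' Φ h3 h2
  have h1mem : (1 : F) ∈ riemannRochSpace E := by
    rw [mem_iff_of_ne one_ne_zero]
    intro v
    have e : v.ord (1 : F) = 0 := by
      rw [← map_one (algebraMap K F)]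
      exact ord_algebraMap v (1 : K)
    rw [e, zero_add]
    exact hE v
  have hv : (⟨1, h1mem⟩ : riemannRochSpace E) ≠ 0 := fun h => one_ne_zero (congrArg Subtype.val h)
  obtain ⟨u, hu0, hu⟩ := lang (ℓ := ℓ) hS hinj hv
  have hu0' : (u : F) ≠ 0 := fun h => hu0 (Subtype.ext h)
  have hu' : h * (Φ • (u : F)) = u := by rw [← hSv, hu]
  refine ⟨u, hu0', (mem_iff_div hu0').mp u.2, ?_⟩
  have h3 : divisorOf (k := K) (u : F) = divisorOf h + divisorOf (Φ • (u : F)) := by
    rw [← divisorOf_mul' hh0 (smul_ne_zero' Φ hu0'), hu']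
  rw [smul_add, smul_divisorOf']
  conv_rhs => rw [h3, hh]
  abel

/-- **finiteness of Frobenius-fixed classes** -/
theorem fixed_classes {Φ : SemilinearAut K F}
    (hΦ : ∀ a : K, SemilinearAut.baseAut Φ a = a ^ ℓ) {x : F} (hx : Φ • x = x) (hx0 : x ≠ 0)
    (htr : Transcendental K x) :
    ∃ D : ℕ, D ≠ 0 ∧ ∀ E : Divisor K F, Divisor.degree E = 0 →
      (∃ h : F, h ≠ 0 ∧ Φ • E - E = divisorOf h) →
      ∃ g : F, g ≠ 0 ∧ D • E = divisorOf g := by
  classical
  obtain ⟨C, hC⟩ := riemann_inequality (k := K) (F := F)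
  -- the base divisor
  have hpol := degree_poleDivisor (k := K) htr
  have hfinrank : 0 < Module.finrank (IntermediateField.adjoin K {x}) F := by
    haveI := finiteDimensional_adjoin_simple (k := K) htr
    exact Module.finrank_pos
  have hpolpos : 1 ≤ Divisor.degree (poleDivisor (k := K) x) := by
    rw [hpol]
    exact_mod_cast hfinrank
  set B : Divisor K F := C • poleDivisor x with hB
  have hBdeg : (C : ℤ) ≤ Divisor.degree B := by
    rw [hB, map_nsmul, nsmul_eq_mul]
    nlinarith [Int.natCast_nonneg C]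
  have hBfix : Φ • B = B := by
    rw [hB, ← smul_comm]
    congr 1
    ext P
    rw [SemilinearAut.divisor_smul_apply, poleDivisor_apply, poleDivisor_apply]
    have h1 := SemilinearAut.ord_smul Φ (Φ⁻¹ • P) x
    rw [smul_inv_smul, hx] at h1
    rw [h1]
  set d := (Divisor.degree B).toNat with hd
  have hdB : Divisor.degree B = d := by
    rw [hd, Int.toNat_of_nonneg]
    exact (Int.natCast_nonneg C).trans hBdeg
  have hfin := finite_fixDiv (K := K) (F := F) hΦ hx hx0 htr d
  -- representatives
  let Prin : AddSubgroup (Divisor K F) :=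
    { carrier := {E | ∃ g : F, g ≠ 0 ∧ E = divisorOf g}
      zero_mem' := ⟨1, one_ne_zero, by
        ext v
        rw [divisorOf_apply, ← map_one (algebraMap K F), ord_algebraMap v (1 : K)]
        rfl⟩
      add_mem' := by
        rintro _ _ ⟨f, hf, rfl⟩ ⟨g, hg, rfl⟩
        exact ⟨f * g, mul_ne_zero hf hg, (divisorOf_mul' hf hg).symm⟩
      neg_mem' := by
        rintro _ ⟨f, hf, rfl⟩
        refine ⟨f⁻¹, inv_ne_zero hf, ?_⟩
        ext v
        rw [divisorOf_apply, Finsupp.neg_apply, divisorOf_apply, v.ord_inv] }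
  have hPrin : ∀ E, E ∈ Prin ↔ ∃ g : F, g ≠ 0 ∧ E = divisorOf g := fun E => Iff.rfl
  let H : AddSubgroup (Divisor K F) :=
    { carrier := {E | Divisor.degree E = 0 ∧ Φ • E - E ∈ Prin}
      zero_mem' := ⟨map_zero _, by rw [smul_zero, sub_zero]; exact Prin.zero_mem⟩
      add_mem' := by
        rintro E E' ⟨h1, h2⟩ ⟨h3, h4⟩
        refine ⟨by rw [map_add, h1, h3, add_zero], ?_⟩
        have e : Φ • (E + E') - (E + E') = (Φ • E - E) + (Φ • E' - E') := by
          rw [smul_add]; abel
        rw [e]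
        exact Prin.add_mem h2 h4
      neg_mem' := by
        rintro E ⟨h1, h2⟩
        refine ⟨by rw [map_neg, h1, neg_zero], ?_⟩
        have e : Φ • (-E) - -E = -(Φ • E - E) := by rw [smul_neg]; abel
        rw [e]
        exact Prin.neg_mem h2 }
  have hrep : ∀ E ∈ H, ∃ E' ∈ {E : Divisor K F | 0 ≤ E ∧ Divisor.degree E = d ∧ Φ • E = E},
      E - (E' - B) ∈ Prin := by
    rintro E ⟨h1, h2⟩
    obtain ⟨f, hf0, hf⟩ := hC (E + B) (by rw [map_add, h1, zero_add]; exact hBdeg)
    set E₁ : Divisor K F := divisorOf f + (E + B) with hE₁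
    have h3 : Φ • E₁ - E₁ ∈ Prin := by
      have e : Φ • E₁ - E₁ = (Φ • divisorOf f - divisorOf f) + (Φ • E - E) := by
        rw [hE₁, smul_add, smul_add, hBfix]; abel
      rw [e]
      refine Prin.add_mem ?_ h2
      rw [smul_divisorOf']
      exact Prin.sub_mem ⟨_, smul_ne_zero' Φ hf0, rfl⟩ ⟨_, hf0, rfl⟩
    obtain ⟨h, hh0, hh⟩ := h3
    obtain ⟨u, hu0, hu1, hu2⟩ := exists_fixed_rep (ℓ := ℓ) hΦ hf hh0 hh.symm
    refine ⟨divisorOf u + E₁, ⟨hu1, ?_, hu2⟩, ?_⟩
    · rw [map_add, hE₁, map_add, map_add, degree_divisorOf, degree_divisorOf, h1, hdB]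
      ring
    · have e : E - (divisorOf u + E₁ - B) = -(divisorOf u + divisorOf f) := by
        rw [hE₁]; abel
      rw [e]
      exact Prin.neg_mem (Prin.add_mem ⟨_, hu0, rfl⟩ ⟨_, hf0, rfl⟩)
  -- the quotient is finite
  have hfinq : Finite (H ⧸ (Prin.addSubgroupOf H)) := by
    have hchoose : ∀ y : H ⧸ (Prin.addSubgroupOf H), ∃ E' : Divisor K F,
        E' ∈ {E : Divisor K F | 0 ≤ E ∧ Divisor.degree E = d ∧ Φ • E = E} ∧
        ((Quotient.out y : H) : Divisor K F) - (E' - B) ∈ Prin := fun y => by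
      obtain ⟨E', h1, h2⟩ := hrep _ (Quotient.out y : H).2
      exact ⟨E', h1, h2⟩
    choose s hs1 hs2 using hchoose
    haveI := hfin.to_subtype
    refine Finite.of_injective (β := {E : Divisor K F | 0 ≤ E ∧ Divisor.degree E = d ∧ Φ • E = E})
      (fun y => ⟨s y, hs1 y⟩) ?_
    intro y y' hyy
    have h1 : s y = s y' := congrArg Subtype.val hyy
    have h2 : ((Quotient.out y : H) : Divisor K F) - (Quotient.out y' : H) ∈ Prin := by
      have e : ((Quotient.out y : H) : Divisor K F) - (Quotient.out y' : H) =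
          (((Quotient.out y : H) : Divisor K F) - (s y - B)) -
            (((Quotient.out y' : H) : Divisor K F) - (s y' - B)) := by
        rw [h1]; abel
      rw [e]
      exact Prin.sub_mem (hs2 y) (hs2 y')
    have e1 : (QuotientAddGroup.mk (Quotient.out y : H) : H ⧸ (Prin.addSubgroupOf H)) = y :=
      QuotientAddGroup.out_eq' y
    have e2 : (QuotientAddGroup.mk (Quotient.out y' : H) : H ⧸ (Prin.addSubgroupOf H)) = y' :=
      QuotientAddGroup.out_eq' y'
    rw [← e1, ← e2, ← sub_eq_zero, ← QuotientAddGroup.mk_sub, QuotientAddGroup.eq_zero_iff]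
    exact h2
  refine ⟨Nat.card (H ⧸ (Prin.addSubgroupOf H)), Nat.card_pos.ne', fun E hE1 hE2 => ?_⟩
  have hEH : E ∈ H := ⟨hE1, hE2⟩
  have h1 : Nat.card (H ⧸ (Prin.addSubgroupOf H)) •
      (QuotientAddGroup.mk (⟨E, hEH⟩ : H) : H ⧸ (Prin.addSubgroupOf H)) = 0 :=
    card_nsmul_eq_zero'
  rw [← QuotientAddGroup.mk_nsmul, QuotientAddGroup.eq_zero_iff] at h1
  exact h1

end Fermat.Agent.MazD
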