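import Fermat.Agent.MazD.Fix
import Fermat.Agent.MazFF.Final

/-!
# Divisor classes over `𝔽_ℓ`-bar are torsion
-/

set_option autoImplicit false
set_option linter.unusedSectionVars false
set_option synthInstance.maxHeartbeats 400000
set_option maxHeartbeats 400000

noncomputable section

namespace Fermat.Agent.MazD

open AlgebraicCurve Fermat.Agent.Curves Fermat.Agent.GoodRed Fermat.Agent.PicFlat ModularCurve
open scoped Pointwise

section

variable {K F : Type*} [Field K] [Field F] [Algebra K F] [IsFunctionField K F] [IsAlgClosed K]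
  {ℓ : ℕ} [hℓ : Fact (1 < ℓ)]

/-- an element which returns to a finite set has a finite orbit -/
theorem exists_pow_smul {G X : Type*} [Group G] [MulAction G X] (g : G) {S : Set X} (hS : S.Finite)
    (h : ∀ y ∈ S, g • y ∈ S) {y : X} (hy : y ∈ S) : ∃ t : ℕ, t ≠ 0 ∧ g ^ t • y = y := by
  have hmaps : ∀ i : ℕ, g ^ i • y ∈ S := by
    intro i
    induction i with
    | zero => rw [pow_zero, one_smul]; exact hy
    | succ i ih => rw [pow_succ', mul_smul]; exact h _ ih
  obtain ⟨i, -, j, -, hij, he⟩ := (Set.infinite_univ (α := ℕ)).exists_ne_map_eq_of_mapsTo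
    (f := fun i : ℕ => g ^ i • y) (t := S) (fun i _ => hmaps i) hS
  have hmain : ∀ i j : ℕ, i < j → g ^ i • y = g ^ j • y → ∃ t : ℕ, t ≠ 0 ∧ g ^ t • y = y := by
    intro i j hij he
    obtain ⟨t, rfl⟩ := Nat.exists_eq_add_of_lt hij
    refine ⟨t + 1, Nat.succ_ne_zero t, ?_⟩
    have e : g ^ (i + t + 1) = g ^ i * g ^ (t + 1) := by rw [← pow_add, add_assoc]
    rw [e, mul_smul] at he
    exact (MulAction.injective (g ^ i) he).symm
  rcases Nat.lt_or_gt_of_ne hij with h | h
  · exact hmain i j h he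
  · exact hmain j i h he.symm

theorem pow_smul_of {G X : Type*} [Group G] [MulAction G X] {g : G} {y : X} (h : g • y = y)
    (n : ℕ) : g ^ n • y = y := by
  induction n with
  | zero => rw [pow_zero, one_smul]
  | succ n ih => rw [pow_succ, mul_smul, h, ih]

/-- finite orbits of places -/
theorem exists_pow_place {Φ : SemilinearAut K F}
    (hΦ : ∀ a : K, SemilinearAut.baseAut Φ a = a ^ ℓ) {x : F} (hx : Φ • x = x) (hx0 : x ≠ 0)
    (htr : Transcendental K x) (halg : ∀ a : K, ∃ n : ℕ, n ≠ 0 ∧ a ^ ℓ ^ n = a)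
    (P : Place K F) : ∃ n : ℕ, n ≠ 0 ∧ (Φ ^ n) • P = P := by
  by_cases hpole : 0 ≤ P.ord x
  · obtain ⟨a, ha⟩ := exists_residue P (f := x) ((mem_iff_val P).mp
      ((mem_iff_ord P hx0).mpr hpole))
    obtain ⟨n, hn0, hn⟩ := halg a
    have hne : ∀ b : K, x - algebraMap K F b ≠ 0 := by
      intro b h
      apply htr
      rw [sub_eq_zero] at h
      rw [h]
      exact isAlgebraic_algebraMap b
    have h1 : 0 < P.ord (x - algebraMap K F a) :=
      ((val_lt_one_iff P).mp ha).resolve_left (hne a)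
    obtain ⟨t, ht0, ht⟩ := exists_pow_smul (Φ ^ n)
      (S := {Q : Place K F | 0 < Q.ord (x - algebraMap K F a)}) (finite_zeros _) (fun Q hQ => by
        have h3 := SemilinearAut.ord_smul (Φ ^ n) Q (x - algebraMap K F a)
        rw [smul_sub, pow_smul_x hx, SemilinearAut.smul_algebraMap, pow_base hΦ, hn] at h3
        rw [Set.mem_setOf_eq, h3]
        exact hQ) (y := P) h1
    exact ⟨n * t, Nat.mul_ne_zero hn0 ht0, by rw [pow_mul]; exact ht⟩
  · obtain ⟨t, ht0, ht⟩ := exists_pow_smul Φ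
      (S := {Q : Place K F | 0 < Q.ord x⁻¹}) (finite_zeros _) (fun Q hQ => by
        have h3 := SemilinearAut.ord_smul Φ Q x
        rw [hx] at h3
        rw [Set.mem_setOf_eq, Place.ord_inv, h3, ← Place.ord_inv]
        exact hQ) (y := P) (by
          rw [Set.mem_setOf_eq, P.ord_inv]
          omega)
    exact ⟨t, ht0, ht⟩

/-- a power of Frobenius fixes a given divisor -/
theorem exists_pow_divisor {Φ : SemilinearAut K F}
    (hΦ : ∀ a : K, SemilinearAut.baseAut Φ a = a ^ ℓ) {x : F} (hx : Φ • x = x) (hx0 : x ≠ 0)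
    (htr : Transcendental K x) (halg : ∀ a : K, ∃ n : ℕ, n ≠ 0 ∧ a ^ ℓ ^ n = a)
    (D : Divisor K F) : ∃ n : ℕ, n ≠ 0 ∧ (Φ ^ n) • D = D := by
  classical
  choose t ht0 ht using exists_pow_place hΦ hx hx0 htr halg
  refine ⟨∏ P ∈ D.support, t P, Finset.prod_ne_zero_iff.mpr fun P _ => ht0 P, ?_⟩
  set n := ∏ P ∈ D.support, t P with hn
  have h1 : ∀ P ∈ D.support, (Φ ^ n) • P = P := by
    intro P hP
    obtain ⟨s, hs⟩ := Finset.dvd_prod_of_mem t hP
    rw [hn, hs, pow_mul]
    exact pow_smul_of (ht P) s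
  ext P
  rw [SemilinearAut.divisor_smul_apply]
  by_cases hP : P ∈ D.support
  · have h2 : (Φ ^ n)⁻¹ • P = P := by
      rw [inv_smul_eq_iff, h1 P hP]
    rw [h2]
  · have h3 : (Φ ^ n)⁻¹ • P ∉ D.support := by
      intro h4
      have h5 := h1 _ h4
      rw [smul_inv_smul] at h5
      rw [← h5] at h4
      exact hP h4
    rw [Finsupp.notMem_support_iff.mp hP, Finsupp.notMem_support_iff.mp h3]

end

/-- **torsion** -/
theorem tors {κ : Type} [Field κ] [IsAlgClosed κ] {ℓ : ℕ} [hℓ : Fact ℓ.Prime] [CharP κ ℓ]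
    [Algebra (ZMod ℓ) κ] [Algebra.IsAlgebraic (ZMod ℓ) κ] {M : ℕ}
    [IsFunctionField κ (ModularCurve.modularFunctionFieldFullC κ M)]
    (D : Divisor κ (ModularCurve.modularFunctionFieldFullC κ M)) (hD : Divisor.degree D = 0) :
    ∃ m : ℕ, m ≠ 0 ∧ ∃ g : ModularCurve.modularFunctionFieldFullC κ M, g ≠ 0 ∧
      m • D = divisorOf g := by
  haveI : Fact (1 < ℓ) := ⟨hℓ.out.one_lt⟩
  let x : ModularCurve.modularFunctionFieldFullC κ M :=
    ⟨ModularCurve.jqModC κ, ModularCurve.jqModC_mem_full κ M⟩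
  have htr : Transcendental κ x := by
    intro h
    exact Curves.transcendental_jqModC κ
      (h.algHom (ModularCurve.modularFunctionFieldFullC κ M).val)
  have hx0 : x ≠ 0 := by
    intro h
    apply htr
    rw [h]
    exact isAlgebraic_zero
  have hx : MazFF.PhiM κ M ℓ • x = x := by
    apply Subtype.ext
    rw [MazFF.PhiM_coe]
    exact coeffMap_jqModC _
  have halg : ∀ a : κ, ∃ n : ℕ, n ≠ 0 ∧ a ^ ℓ ^ n = a := by
    intro a
    have hint : IsIntegral (ZMod ℓ) a := Algebra.IsIntegral.isIntegral a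
    haveI : FiniteDimensional (ZMod ℓ) (IntermediateField.adjoin (ZMod ℓ) {a}) :=
      IntermediateField.adjoin.finiteDimensional hint
    haveI : Finite (IntermediateField.adjoin (ZMod ℓ) {a}) :=
      Module.finite_of_finite (ZMod ℓ)
    haveI := Fintype.ofFinite (IntermediateField.adjoin (ZMod ℓ) {a})
    obtain ⟨n, hn, hcard⟩ := FiniteField.card (IntermediateField.adjoin (ZMod ℓ) {a}) ℓ
    refine ⟨n, n.ne_zero, ?_⟩
    have h1 := FiniteField.pow_card
      (⟨a, IntermediateField.mem_adjoin_simple_self (ZMod ℓ) a⟩ :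
        IntermediateField.adjoin (ZMod ℓ) {a})
    rw [hcard] at h1
    exact congrArg Subtype.val h1
  obtain ⟨n, hn0, hn⟩ := exists_pow_divisor (MazFF.PhiM_base M ℓ) hx hx0 htr halg D
  haveI : Fact (1 < ℓ ^ n) := ⟨Nat.one_lt_pow hn0 hℓ.out.one_lt⟩
  obtain ⟨m, hm0, hm⟩ := fixed_classes (K := κ) (ℓ := ℓ ^ n) (Φ := (MazFF.PhiM κ M ℓ) ^ n)
    (fun a => pow_base (MazFF.PhiM_base M ℓ) n a) (pow_smul_x hx n) hx0 htr
  refine ⟨m, hm0, hm D hD ⟨1, one_ne_zero, ?_⟩⟩
  rw [hn, sub_self]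
  ext v
  rw [divisorOf_apply, ← map_one (algebraMap κ _), ord_algebraMap v (1 : κ)]
  rfl

end Fermat.Agent.MazD
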